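import Mathlib
import Fermat.Agent.LT.T7.SM640.StepMDatSpec
import Fermat.Agent.LT.T7.H510.SphEx
import Fermat.Agent.LT.T7.H868.SphOp
import Fermat.Agent.LT.T7.H266.SphFubini

/-!
# Row LT, tower T7, leaf T7.L2Q.1.H2a.A.0b.M SM.8 `SM640.StepUpOpC640 F` (helper892, spare)

OFF-MAIN.  Proves VERBATIM the leaf `StepUpOpC640 F` of the cut of helper640
(`T7/SM640/StepMDatSpec.lean`, sha256 3bc5afa1) of the node `BQ87.StepMDatQC87`: the operator
upstairs of the new data is `C.m w d` times the operator of `D` on the eigenfunctions.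

Proof.  `F` has ONE infinite place (`IsImagQuad`), it is complex.  `Y` = a sphere family at `w`
(`H510.sphExC_h510`).  `(stepDat640 D d y F0' F1').up 𝔑 = H445.sphMean445 Y (D.up 𝔑)`
(`stepUp_eq892`: the sphere mean of a pure tensor `T3.M.pureFnM` is the pure tensor with the
local sphere mean at `w`; the finite sum commutes with the two interval integrals because the
integrands are continuous, `H266.continuous_sph266`).  Then `H868.sphOpC868` for the test
function `D.up 𝔑`.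

ADDITIVE: new names only (suffix `892`), theorems only.  No hole, nothing assumed.
-/

set_option autoImplicit false

open AutomorphicForm IsDedekindDomain NumberField MeasureTheory

noncomputable section

namespace Fermat.Agent.LT.T7.H892

open Fermat.Agent.LT Fermat.Agent.LT.H556 Fermat.Agent.LT.H556.A0 Fermat.Agent.LT.T7
  Fermat.Agent.LT.T7.H305 Fermat.Agent.LT.T7.L2Q Fermat.Agent.LT.T7.H893
  Fermat.Agent.LT.T7.H962 Fermat.Agent.LT.T7.H732 Fermat.Agent.LT.T7.MQ298
  Fermat.Agent.LT.T7.CQ801 Fermat.Agent.LT.T7.PQ484 Fermat.Agent.LT.T7.BQ87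

attribute [local instance] Fermat.Agent.LT.T5.instMeasurableSpaceG

variable {F : Type} [Field F] [NumberField F]

theorem finGL_locInf_su892 {w : InfinitePlace F} {g : G F} (hg : IsLocalAtInf w g)
    (v : HeightOneSpectrum (𝓞 F)) : T3.AS.finGL F v g = 1 := by
  apply Units.ext
  rw [T3.AS.finGL_coe]
  exact hg.2 v

theorem outsideUM_mul_locInf892 {w : InfinitePlace F} {Yab : G F} (hY : IsLocalAtInf w Yab)
    (𝔑 : Ideal (𝓞 F)) (P : Finset (HeightOneSpectrum (𝓞 F))) (g : G F) :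
    T3.M.OutsideUM F 𝔑 P (g * Yab) ↔ T3.M.OutsideUM F 𝔑 P g := by
  have h1 : ∀ v : HeightOneSpectrum (𝓞 F), T3.AS.finGL F v (g * Yab) = T3.AS.finGL F v g := by
    intro v
    rw [map_mul, finGL_locInf_su892 hY v, mul_one]
  have h2 : ∀ v : HeightOneSpectrum (𝓞 F),
      T3.AS.finGL F v (g * Yab)⁻¹ = T3.AS.finGL F v g⁻¹ := by
    intro v
    rw [map_inv, h1, map_inv]
  unfold T3.M.OutsideUM
  simp only [← T3.AS.finGL_coe, h1, h2]

/-- Integrability of the local integrands of the sphere mean (abstract form). -/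
theorem sph_integrable892 {y : ℝ → ℝ → GL (Fin 2) ℂ}
    (hyc : Continuous fun p : ℝ × ℝ => y p.1 p.2) {Ψ : GL (Fin 2) ℂ → ℂ} (hΨ : Continuous Ψ)
    (gw : GL (Fin 2) ℂ) (c : ℂ) :
    (∀ α : ℝ, IntervalIntegrable
      (fun β : ℝ => c * (Ψ (gw * y α β) * ((Real.sin β : ℝ) : ℂ))) volume 0 Real.pi) ∧
    IntervalIntegrable (fun α : ℝ => c * ∫ β in (0 : ℝ)..Real.pi,
      Ψ (gw * y α β) * ((Real.sin β : ℝ) : ℂ)) volume 0 (2 * Real.pi) := by
  have hf : Continuous (Function.uncurry fun (α : ℝ) (β : ℝ) =>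
      Ψ (gw * y α β) * ((Real.sin β : ℝ) : ℂ)) := by
    have h1 : Continuous fun p : ℝ × ℝ => Ψ (gw * y p.1 p.2) :=
      hΨ.comp (continuous_const.mul hyc)
    have h2 : Continuous fun p : ℝ × ℝ => ((Real.sin p.2 : ℝ) : ℂ) :=
      Complex.continuous_ofReal.comp (Real.continuous_sin.comp continuous_snd)
    exact h1.mul h2
  refine ⟨fun α => ?_, ?_⟩
  · have hβ : Continuous fun β : ℝ => Ψ (gw * y α β) * ((Real.sin β : ℝ) : ℂ) :=
      hf.comp (continuous_const.prodMk continuous_id)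
    exact (continuous_const.mul hβ).intervalIntegrable _ _
  · have hα : Continuous fun α : ℝ => ∫ β in (0 : ℝ)..Real.pi,
        Ψ (gw * y α β) * ((Real.sin β : ℝ) : ℂ) :=
      intervalIntegral.continuous_parametric_intervalIntegral_of_continuous' hf 0 Real.pi
    exact (continuous_const.mul hα).intervalIntegrable _ _

/-- **The sum upstairs of the new data is the sphere mean of the sum upstairs of `D`.** -/
theorem stepUp_eq892 (hIQ : IsImagQuad F) (D : DatQ87 F)
    (hcont : ∀ (i : Fin D.N) (w : InfinitePlace F), Continuous (D.Φ i w))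
    (𝔑 : Ideal (𝓞 F)) (w : InfinitePlace F) (d : ℝ) (y : ℝ → ℝ → GL (Fin 2) ℂ)
    (hy : H445.IsSphC445 d y) (Y : ℝ → ℝ → G F) (hY : H445.IsSph445 w d Y)
    (F0' F1' : Fin D.N → GL (Fin 2) ℝ → ℂ) :
    (SM640.stepDat640 D d y F0' F1').up 𝔑 = H445.sphMean445 Y (D.up 𝔑) := by
  funext g
  classical
  have hsub : Subsingleton (InfinitePlace F) := (Nat.card_eq_one_iff_unique.1 hIQ.1).1
  have hyc := H266.continuous_sph266 d y hy
  have hinf : ∀ α β : ℝ, T3.AS.infGL F w (g * Y α β) = T3.AS.infGL F w g * y α β := by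
    intro α β
    rw [map_mul]
    congr 1
    apply Units.ext
    rw [T3.AS.infGL_coe, (hY α β).2, hy α β]
  have hfin : ∀ (α β : ℝ) (v : HeightOneSpectrum (𝓞 F)),
      T3.AS.finGL F v (g * Y α β) = T3.AS.finGL F v g := by
    intro α β v
    rw [map_mul, finGL_locInf_su892 (hY α β).1 v, mul_one]
  have hout : ∀ α β : ℝ,
      T3.M.OutsideUM F 𝔑 D.P' (g * Y α β) ↔ T3.M.OutsideUM F 𝔑 D.P' g :=
    fun α β => outsideUM_mul_locInf892 (hY α β).1 𝔑 D.P' g
  -- the constants
  obtain ⟨A, hA1, hA2⟩ : ∃ A : Fin D.N → ℂ,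
      (∀ (i : Fin D.N) (Ψ : InfinitePlace F → GL (Fin 2) ℂ → ℂ) (h : G F),
        (T3.M.OutsideUM F 𝔑 D.P' h ↔ T3.M.OutsideUM F 𝔑 D.P' g) →
        (∀ v : HeightOneSpectrum (𝓞 F), T3.AS.finGL F v h = T3.AS.finGL F v g) →
        T3.M.pureFnM F 𝔑 D.P' (D.φ₀ i) Ψ h = A i * Ψ w (T3.AS.infGL F w h)) ∧ True := by
    by_cases hO : T3.M.OutsideUM F 𝔑 D.P' g
    · refine ⟨fun i => ∏ v ∈ D.P', D.φ₀ i v (T3.AS.finGL F v g), ?_, trivial⟩
      intro i Ψ h hh hf
      unfold T3.M.pureFnM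
      rw [if_pos (hh.2 hO), Fintype.prod_subsingleton _ w]
      simp only [hf]
    · refine ⟨fun _ => 0, ?_, trivial⟩
      intro i Ψ h hh _
      unfold T3.M.pureFnM
      rw [if_neg (fun h' => hO (hh.1 h')), zero_mul]
  -- the left hand side
  have hL : (SM640.stepDat640 D d y F0' F1').up 𝔑 g
      = ∑ i : Fin D.N, A i * H445.sphMeanC445 y (D.Φ i w) (T3.AS.infGL F w g) := by
    show ∑ i : Fin D.N, T3.M.pureFnM F 𝔑 D.P' (D.φ₀ i)
        (fun w' => H445.sphMeanC445 y (D.Φ i w')) g = _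
    refine Finset.sum_congr rfl (fun i _ => ?_)
    exact hA1 i _ g Iff.rfl (fun _ => rfl)
  -- the right hand side
  have hR : H445.sphMean445 Y (D.up 𝔑) g
      = ∑ i : Fin D.N, A i * H445.sphMeanC445 y (D.Φ i w) (T3.AS.infGL F w g) := by
    have hint : ∀ α β : ℝ, D.up 𝔑 (g * Y α β) * ((Real.sin β : ℝ) : ℂ)
        = ∑ i : Fin D.N, A i *
          (D.Φ i w (T3.AS.infGL F w g * y α β) * ((Real.sin β : ℝ) : ℂ)) := by
      intro α β
      show (∑ i : Fin D.N, T3.M.pureFnM F 𝔑 D.P' (D.φ₀ i) (D.Φ i) (g * Y α β))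
        * ((Real.sin β : ℝ) : ℂ) = _
      rw [Finset.sum_mul]
      refine Finset.sum_congr rfl (fun i _ => ?_)
      rw [hA1 i (D.Φ i) (g * Y α β) (hout α β) (hfin α β), hinf, mul_assoc]
    have hinner : ∀ α : ℝ, (∫ β in (0 : ℝ)..Real.pi,
        D.up 𝔑 (g * Y α β) * ((Real.sin β : ℝ) : ℂ))
        = ∑ i : Fin D.N, A i * ∫ β in (0 : ℝ)..Real.pi,
          D.Φ i w (T3.AS.infGL F w g * y α β) * ((Real.sin β : ℝ) : ℂ) := by
      intro α
      simp only [hint]
      rw [intervalIntegral.integral_finsetSum]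
      · refine Finset.sum_congr rfl (fun i _ => ?_)
        rw [intervalIntegral.integral_const_mul]
      · intro i _
        exact (sph_integrable892 hyc (hcont i w) (T3.AS.infGL F w g) (A i)).1 α
    unfold H445.sphMean445
    simp only [hinner]
    rw [intervalIntegral.integral_finsetSum]
    · refine Finset.sum_congr rfl (fun i _ => ?_)
      rw [intervalIntegral.integral_const_mul]
      rfl
    · intro i _
      exact (sph_integrable892 hyc (hcont i w) (T3.AS.infGL F w g) (A i)).2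
  rw [hL, hR]

/-- **LEAF SM.8 = STEP-UP-OP**, VERBATIM. -/
theorem stepUpOpC892 (F : Type) [Field F] [NumberField F] : SM640.StepUpOpC640 F := by
  intro _h3 hIQ Φ _hcusp _hfib _hek B hB _hram 𝔫 _hlev T₀ n n₀ m _hlf c _hc D hD htest w d hd
    y hy F0' F1' χ C hχ x
  have hw : w.IsComplex := hIQ.2 w
  obtain ⟨Y, hY⟩ := H510.sphExC_h510 F w hw d
  rw [stepUp_eq892 hIQ D (fun i w' => (hD.test_up i w').cont) (upI (K' := F) 𝔫) w d y hy Y hY
    F0' F1']
  exact H868.sphOpC868 F (toBase962_732 B).R' hB.frame' (upI (K' := F) 𝔫) w hw d hd Y hY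
    (D.up (upI (K' := F) 𝔫)) htest (toBase962_732 B).𝔑₀ 2 (toBase962_732 B).o χ C hχ x

end Fermat.Agent.LT.T7.H892

end
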